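import Fermat.Agent.H39.MW.ModStatements
import Fermat.Agent.H69.ES1Finite
import Fermat.Agent.H58.RR.Modular
import Fermat.Agent.H23.Final3

/-!
# P-MW / MW-E-CUSP (row 882, helper1): `CuspSetting` holds for `X₀(N)`

Adapters: Riemann's theorem `H58.rrHyp_modularFunctionFieldBar`, the cusp place
`H53.jZero_qPlace`, the degree statement `H23.degreeStatement_holds` (over `ℚ̄`) and
`H69.finiteDimensional_of_algRel` (over `ℚ`).
-/

set_option autoImplicit false

noncomputable section

open AlgebraicCurve ModularCurve

namespace Fermat.Agent.H1.MW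

open Fermat.Agent.H39.MW Fermat.Agent.H92.MW

/-- **MW-E-CUSP**: the standing hypotheses of Block E hold for `modularFunctionFieldFull N`. -/
theorem cuspModularStatement : Fermat.Agent.H39.MW.CuspModularStatement := by
  intro N _
  obtain ⟨P₀, hP₀⟩ := Fermat.Agent.H53.jZero_qPlace N
  refine ⟨P₀, ⟨Fermat.Agent.H58.rrHyp_modularFunctionFieldBar N, hP₀, ?_⟩⟩
  have hj : jq ∈ modularFunctionFieldFull N := Fermat.Agent.H69.ES1.jq_mem_full N
  have hdeg := Fermat.Agent.H23.degreeStatement_holds N
  refine ⟨⟨jq, hj⟩, ?_, ?_, ?_, ?_⟩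
  · have h := Fermat.Agent.H69.ES1.transcendental_subtype (modularFunctionFieldFull N) hj
      Fermat.Agent.H69.ES1.transcendental_jq
    convert h <;> first | rfl | exact Subsingleton.elim _ _
  · have h := Fermat.Agent.H69.ES1.finiteDimensional_of_algRel (modularFunctionFieldFull N)
      (divisorExpansions N) (Fermat.Agent.H69.ES1.finite_divisorExpansions N) rfl hj
      Fermat.Agent.H69.ES1.transcendental_jq (Fermat.Agent.H69.ES1.algRel_divisorExpansions N)
    convert h <;> first | rfl | exact Subsingleton.elim _ _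
  · exact hdeg.1
  · exact hdeg.2.1

end Fermat.Agent.H1.MW

end
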