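import Mathlib

/-!
# P-MW / MW-GA-GAUSS (row 857, helper1): the Gauss lemma for valuations

For a valuation `v` on a field `K` and `z₁, …, z_d ∈ K`, the maximum of the valuations of the
coefficients of `∏ (X - z_a)` is `∏ max(1, v (z_a))`.  Mathlib only; elementary proof (no
residue fields): multiplication by `X - z` multiplies the Gauss norm by `max(1, v z)`, look at the
highest (if `v z ≤ 1`) or lowest (if `1 < v z`) coefficient of maximal valuation.
-/

set_option autoImplicit false

noncomputable section

open Polynomial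

namespace Fermat.Agent.H1.MW

variable {K : Type*} [Field K] {Γ₀ : Type*} [LinearOrderedCommGroupWithZero Γ₀]
  (v : Valuation K Γ₀)

/-- The Gauss norm of `f`, computed on the coefficients of index `< n`. -/
def gaussN (f : K[X]) (n : ℕ) : Γ₀ := (Finset.range n).sup fun k => v (f.coeff k)

theorem coeff_le_gaussN_of_lt (f : K[X]) (n k : ℕ) (hk : k < n) :
    v (f.coeff k) ≤ gaussN v f n :=
  Finset.le_sup (f := fun k => v (f.coeff k)) (Finset.mem_range.2 hk)

theorem coeff_le_gaussN (f : K[X]) (n : ℕ) (hn : f.natDegree < n) (k : ℕ) :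
    v (f.coeff k) ≤ gaussN v f n := by
  by_cases hk : k < n
  · exact Finset.le_sup (f := fun k => v (f.coeff k)) (Finset.mem_range.2 hk)
  · rw [coeff_eq_zero_of_natDegree_lt (lt_of_lt_of_le hn (not_lt.1 hk)), map_zero]
    exact zero_le'

theorem gaussN_le_iff (f : K[X]) (n : ℕ) (B : Γ₀) :
    gaussN v f n ≤ B ↔ ∀ k < n, v (f.coeff k) ≤ B := by
  unfold gaussN
  rw [Finset.sup_le_iff]
  simp only [Finset.mem_range]

theorem coeff_mul_X_sub_C_le (f : K[X]) (z : K) (n : ℕ) (hn : f.natDegree < n) (k : ℕ) :
    v ((f * (X - C z)).coeff k) ≤ gaussN v f n * max 1 (v z) := by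
  have hM := coeff_le_gaussN v f n hn
  rcases k with _ | k
  · rw [mul_coeff_zero, coeff_sub, coeff_X_zero, coeff_C_zero, zero_sub, map_mul,
      Valuation.map_neg]
    exact mul_le_mul' (hM 0) (le_max_right _ _)
  · rw [coeff_mul_X_sub_C]
    refine le_trans (Valuation.map_sub _ _ _) (max_le ?_ ?_)
    · calc v (f.coeff k) ≤ gaussN v f n * 1 := by rw [mul_one]; exact hM k
        _ ≤ gaussN v f n * max 1 (v z) := mul_le_mul' le_rfl (le_max_left _ _)
    · rw [map_mul]
      exact mul_le_mul' (hM (k + 1)) (le_max_right _ _)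

theorem gaussN_mul_X_sub_C (f : K[X]) (z : K) (n : ℕ) (hn : f.natDegree < n) :
    gaussN v (f * (X - C z)) (n + 1) = gaussN v f n * max 1 (v z) := by
  classical
  have hM := coeff_le_gaussN v f n hn
  refine le_antisymm ?_ ?_
  · rw [gaussN_le_iff]
    intro k _
    exact coeff_mul_X_sub_C_le v f z n hn k
  · -- lower bound
    by_cases hM0 : gaussN v f n = 0
    · rw [hM0, zero_mul]
      exact zero_le'
    have hne : (Finset.range n).Nonempty := by
      rw [Finset.nonempty_range_iff]
      omega
    obtain ⟨k₀, hk₀, hk₀M⟩ := Finset.exists_mem_eq_sup (Finset.range n) hne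
      (fun k => v (f.coeff k))
    set S : Finset ℕ := (Finset.range n).filter (fun k => v (f.coeff k) = gaussN v f n) with hS
    have hSne : S.Nonempty := ⟨k₀, by
      rw [hS, Finset.mem_filter]
      exact ⟨hk₀, hk₀M.symm⟩⟩
    have hSmem : ∀ k, k ∈ S ↔ k < n ∧ v (f.coeff k) = gaussN v f n := by
      intro k
      rw [hS, Finset.mem_filter, Finset.mem_range]
    -- an index attaining the bound lies in `S`
    have hin : ∀ k, v (f.coeff k) = gaussN v f n → k ∈ S := by
      intro k hk
      rw [hSmem]
      refine ⟨?_, hk⟩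
      by_contra hkn
      rw [coeff_eq_zero_of_natDegree_lt (lt_of_lt_of_le hn (not_lt.1 hkn)), map_zero] at hk
      exact hM0 hk.symm
    have hlt : ∀ k, k ∉ S → v (f.coeff k) < gaussN v f n := fun k hk =>
      lt_of_le_of_ne (hM k) (fun h => hk (hin k h))
    rcases le_or_gt (v z) 1 with hz | hz
    · -- the highest index of maximal valuation
      rw [max_eq_left hz, mul_one]
      have hk := Finset.max'_mem S hSne
      set k := S.max' hSne with hkdef
      have hk1 : k + 1 ∉ S := by
        intro h
        have := Finset.le_max' S (k + 1) h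
        omega
      have h1 : v (f.coeff (k + 1) * z) < v (f.coeff k) := by
        rw [((hSmem k).1 hk).2, map_mul]
        calc v (f.coeff (k + 1)) * v z ≤ v (f.coeff (k + 1)) * 1 := mul_le_mul' le_rfl hz
          _ = v (f.coeff (k + 1)) := mul_one _
          _ < gaussN v f n := hlt _ hk1
      have h2 : v ((f * (X - C z)).coeff (k + 1)) = gaussN v f n := by
        rw [coeff_mul_X_sub_C, Valuation.map_sub_eq_of_lt_left _ h1, ((hSmem k).1 hk).2]
      rw [← h2]
      exact coeff_le_gaussN_of_lt v _ (n + 1) (k + 1) (by have := ((hSmem k).1 hk).1; omega)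
    · -- the lowest index of maximal valuation
      rw [max_eq_right hz.le]
      have hk := Finset.min'_mem S hSne
      have hkmin : ∀ j ∈ S, S.min' hSne ≤ j := fun j hj => Finset.min'_le S j hj
      set k := S.min' hSne with hkdef
      have hkn : k < n := ((hSmem k).1 hk).1
      have hkM : v (f.coeff k) = gaussN v f n := ((hSmem k).1 hk).2
      have h2 : v ((f * (X - C z)).coeff k) = gaussN v f n * v z := by
        rcases hkk : k with _ | j
        · rw [mul_coeff_zero, coeff_sub, coeff_X_zero, coeff_C_zero, zero_sub, map_mul,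
            Valuation.map_neg, ← hkM, hkk]
        · have hj : j ∉ S := by
            intro h
            have := hkmin j h
            omega
          have hMpos : 0 < gaussN v f n := lt_of_le_of_ne zero_le' (Ne.symm hM0)
          have h1 : v (f.coeff j) < v (f.coeff (j + 1) * z) := by
            rw [map_mul, ← hkk, hkM]
            calc v (f.coeff j) < gaussN v f n := hlt _ hj
              _ = gaussN v f n * 1 := (mul_one _).symm
              _ < gaussN v f n * v z := by
                  exact (mul_lt_mul_iff_right₀ hMpos).2 hz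
          rw [coeff_mul_X_sub_C, Valuation.map_sub_eq_of_lt_right _ h1, map_mul, ← hkk, hkM]
      rw [← h2]
      exact coeff_le_gaussN_of_lt v _ (n + 1) k (by omega)

/-- **Gauss lemma** (range form). -/
theorem gaussN_prod_X_sub_C (d : ℕ) (z : Fin d → K) :
    gaussN v (∏ a : Fin d, (X - C (z a))) (d + 1) = ∏ a : Fin d, max 1 (v (z a)) := by
  induction d with
  | zero =>
    simp [gaussN]
  | succ d ih =>
    rw [Fin.prod_univ_castSucc, Fin.prod_univ_castSucc]
    have hdeg : (∏ a : Fin d, (X - C (z a.castSucc))).natDegree < d + 1 := by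
      rw [natDegree_finset_prod_X_sub_C_eq_card, Finset.card_univ, Fintype.card_fin]
      exact Nat.lt_succ_self d
    rw [gaussN_mul_X_sub_C v _ _ (d + 1) hdeg, ih]

/-- **Gauss lemma** (`Fin (d + 1)` form): `max_k |e_k(z)| = ∏ max(1, |z a|)` for the coefficients
of `∏ (X - z a)`. -/
theorem gauss_val (d : ℕ) (z : Fin d → K) :
    (Finset.univ.sup fun k : Fin (d + 1) => v ((∏ a : Fin d, (X - C (z a))).coeff k)) =
      ∏ a : Fin d, max 1 (v (z a)) := by
  rw [← gaussN_prod_X_sub_C v d z]
  unfold gaussN
  refine le_antisymm (Finset.sup_le fun k _ => ?_) (Finset.sup_le fun k hk => ?_)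
  · exact Finset.le_sup (f := fun k : ℕ => v ((∏ a : Fin d, (X - C (z a))).coeff k))
      (Finset.mem_range.2 k.2)
  · exact Finset.le_sup
      (f := fun k : Fin (d + 1) => v ((∏ a : Fin d, (X - C (z a))).coeff k))
      (Finset.mem_univ (⟨k, Finset.mem_range.1 hk⟩ : Fin (d + 1)))

end Fermat.Agent.H1.MW

end
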