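import Fermat.Agent.H1.MW.GaussVal
import Fermat.Agent.H92.MW.GTAppInterfaces

/-!
# P-MW / MW-GA-GAUSS (row 857, helper1): `Fermat.Agent.H92.MW.GaussValStatement`
-/

set_option autoImplicit false

namespace Fermat.Agent.H1.MW

/-- **GAUSS**: `max_k |e_k(z)| = ∏ max(1, |z a|)` for the coefficients of `∏ (X - z a)`. -/
theorem gaussValStatement : Fermat.Agent.H92.MW.GaussValStatement :=
  fun _ _ V d z => gauss_val V.valuation d z

end Fermat.Agent.H1.MW
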