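import Mathlib

/-!
# P-MW / MV-RAM (row 778, helper1): finitely many ramified primes over `ℚ[t]`

If the Dedekind domain `R` is finite over `ℚ[t]` (`t` transcendental), then all but finitely many
maximal ideals `P` of `R` are unramified over `ℚ[t]`: the generator `π` of `P ∩ ℚ[t]` satisfies
`π(t) ∈ P`, `π(t) ∉ P ^ 2`.  (Mathlib only: the different ideal is nonzero and `P ^ 2 ∣ p R`
implies `P ∣ 𝔇`.)
-/

set_option autoImplicit false

noncomputable section

open Polynomial

namespace Fermat.Agent.H1.MW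

/-- the statement of `Fermat.Agent.H30.MW.UnramifiedStatement`, for a fixed `R` -/
theorem unramified_core (R : Type) [CommRing R] [Algebra ℚ R] [IsDedekindDomain R] (t : R)
    (ht : Transcendental ℚ t) (hfin : (aeval (R := ℚ) t).toRingHom.Finite) :
    ∃ S : Set (Ideal R), S.Finite ∧ ∀ P : Ideal R, P.IsMaximal → P ∉ S →
      ∃ π : ℚ[X], aeval t π ∈ P ∧ aeval t π ∉ P ^ 2 ∧ ∀ q : ℚ[X], aeval t q ∈ P → π ∣ q := by
  classical
  letI alg : Algebra ℚ[X] R := (aeval (R := ℚ) t).toRingHom.toAlgebra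
  have hmap : ∀ q : ℚ[X], algebraMap ℚ[X] R q = aeval t q := fun _ => rfl
  have hinj : Function.Injective (algebraMap ℚ[X] R) := by
    intro a b hab
    rw [hmap, hmap] at hab
    exact (transcendental_iff_injective.mp ht) hab
  haveI : Module.Finite ℚ[X] R := hfin
  haveI : FaithfulSMul ℚ[X] R := (faithfulSMul_iff_algebraMap_injective _ _).mpr hinj
  haveI : Module.IsTorsionFree ℚ[X] R := inferInstance
  haveI : Algebra.IsIntegral ℚ[X] R := inferInstance
  letI algF : Algebra (FractionRing ℚ[X]) (FractionRing R) := FractionRing.liftAlgebra _ _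
  haveI : IsScalarTower ℚ[X] (FractionRing ℚ[X]) (FractionRing R) :=
    FractionRing.isScalarTower_liftAlgebra _ _
  haveI : Algebra.IsAlgebraic (FractionRing ℚ[X]) (FractionRing R) := inferInstance
  haveI : Algebra.IsSeparable (FractionRing ℚ[X]) (FractionRing R) := inferInstance
  have hD : differentIdeal ℚ[X] R ≠ ⊥ := differentIdeal_ne_bot
  have hS := Ideal.finite_factors hD
  refine ⟨IsDedekindDomain.HeightOneSpectrum.asIdeal ''
    {v : IsDedekindDomain.HeightOneSpectrum R | v.asIdeal ∣ differentIdeal ℚ[X] R},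
    hS.image _, ?_⟩
  intro P hP hPS
  -- `P ≠ ⊥`
  have hPbot : P ≠ ⊥ := by
    rintro rfl
    have hfield : IsField R := Ring.isField_iff_maximal_bot.mpr hP
    exact Polynomial.not_isField ℚ (isField_of_isIntegral_of_isField hinj hfield)
  haveI hPprime : P.IsPrime := hP.isPrime
  have hnd : ¬ P ∣ differentIdeal ℚ[X] R := by
    intro hdvd
    exact hPS ⟨⟨P, hPprime, hPbot⟩, hdvd, rfl⟩
  -- the prime below
  set p : Ideal ℚ[X] := P.comap (algebraMap ℚ[X] R) with hp
  haveI : p.IsPrime := Ideal.comap_isPrime _ _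
  have hpbot : p ≠ ⊥ := mt Ideal.eq_bot_of_comap_eq_bot hPbot
  haveI : p.IsMaximal := Ideal.IsPrime.isMaximal inferInstance hpbot
  obtain ⟨π, hπ⟩ : ∃ π : ℚ[X], p = Ideal.span {π} :=
    ⟨_, (IsPrincipalIdealRing.principal p).span_singleton_generator.symm⟩
  have hπmem : π ∈ p := by
    rw [hπ]
    exact Ideal.mem_span_singleton_self π
  refine ⟨π, hπmem, ?_, ?_⟩
  · intro h2
    apply hnd
    have h3 : P ^ 2 ∣ p.map (algebraMap ℚ[X] R) := by
      rw [Ideal.dvd_iff_le, hπ, Ideal.map_span, Set.image_singleton, Ideal.span_le,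
        Set.singleton_subset_iff]
      exact h2
    have h4 := pow_sub_one_dvd_differentIdeal ℚ[X] P 2 hpbot h3
    simpa using h4
  · intro q hq
    have hq' : q ∈ p := hq
    rw [hπ, Ideal.mem_span_singleton] at hq'
    exact hq'

end Fermat.Agent.H1.MW

end
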