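import Fermat.Agent.H1.MW.Unramified
import Fermat.Agent.H30.MW.MoveInterfaces

/-!
# P-MW / MV-RAM (row 778, helper1): `Fermat.Agent.H30.MW.UnramifiedStatement`
-/

set_option autoImplicit false

namespace Fermat.Agent.H1.MW

/-- **MV-RAM**: all but finitely many maximal ideals of `R` are unramified over `ℚ[t]`. -/
theorem unramifiedStatement : Fermat.Agent.H30.MW.UnramifiedStatement :=
  fun R _ _ _ t ht hfin => unramified_core R t ht hfin

end Fermat.Agent.H1.MW
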